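import Mathlib

/-!
# Programme I (S33, p-new half), node §4e (GAUSS-LOC), abstract part (helper15), Mathlib-only

`R` a noetherian domain, `J` a prime ideal, `ϖ ∈ J`, `u ∉ J` with `u • J ⊆ (ϖ)`
(node: `J = (ϖ, v)`, `u * v ∈ (ϖ)`; disc: `J = (ϖ)`, `u = 1`).

* `exists_pow_mul_eq` : **`R_J` is a discrete valuation ring with uniformizer `ϖ`**, in elementary
  form: every `y ≠ 0` satisfies `s * y = ϖ ^ n * z` with `s, z ∉ J`;
* `exists_pow_mul_eq_of_span` : the same from `J = span {ϖ, v}`, `u * v = ϖ * w`;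
* `exists_eq_pow_mul` : the disc case `J = span {ϖ}` (`y = ϖ ^ n * z`, `z ∉ J`);
* `exists_mul_eq_of_mem` : **`O ∩ Frac R = R_J`** for a valuation ring `O ⊇ R` of a field `F ⊇ R`
  whose maximal ideal contracts to `J`;
* `pow_unique` : uniqueness of the exponent `n`.
-/

set_option autoImplicit false

namespace Fermat.Agent.FF3.GaussLoc

section DVR

variable {R : Type*} [CommRing R] [IsDomain R] [IsNoetherianRing R]

/-- **The localisation at the vertical prime is a DVR with uniformizer `ϖ`** (elementary form).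
`J` prime, `ϖ ∈ J`, `u ∉ J`, `u • J ⊆ (ϖ)`: every `y ≠ 0` satisfies `s * y = ϖ ^ n * z` with
`s, z ∉ J` (and in fact `s = u ^ n`). -/
theorem exists_pow_mul_eq (J : Ideal R) [hJp : J.IsPrime] (ϖ u : R) (hϖ : ϖ ∈ J)
    (hu : u ∉ J) (hJ : ∀ y ∈ J, ϖ ∣ u * y) {y : R} (hy : y ≠ 0) :
    ∃ (n : ℕ) (s z : R), s ∉ J ∧ z ∉ J ∧ s * y = ϖ ^ n * z := by
  by_contra hcon
  push Not at hcon
  have hun : ∀ n : ℕ, u ^ n ∉ J := fun n h => hu (hJp.mem_of_pow_mem n h)
  -- `ϖ ^ n ∣ u ^ n * y` for all `n`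
  have hstep : ∀ n : ℕ, ∃ z : R, u ^ n * y = ϖ ^ n * z := by
    intro n
    induction n with
    | zero => exact ⟨y, by simp⟩
    | succ n ih =>
      obtain ⟨z, hz⟩ := ih
      have hzJ : z ∈ J := by
        by_contra hzJ
        exact hcon n (u ^ n) z (hun n) hzJ hz
      obtain ⟨z', hz'⟩ := hJ z hzJ
      refine ⟨z', ?_⟩
      calc u ^ (n + 1) * y = u * (u ^ n * y) := by ring
        _ = u * (ϖ ^ n * z) := by rw [hz]
        _ = ϖ ^ n * (u * z) := by ring
        _ = ϖ ^ n * (ϖ * z') := by rw [hz']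
        _ = ϖ ^ (n + 1) * z' := by ring
  choose z hz using hstep
  -- the ascending chain of ideals `(z 0, …, z n)` stabilises
  let f : ℕ →o Submodule R R :=
    { toFun := fun n => Submodule.span R (z '' Set.Iic n)
      monotone' := fun a b hab =>
        Submodule.span_mono (Set.image_mono (Set.Iic_subset_Iic.mpr hab)) }
  obtain ⟨N, hN⟩ := monotone_stabilizes_iff_noetherian.mpr
    (inferInstance : IsNoetherian R R) f
  have hmem : z (N + 1) ∈ Submodule.span R (z '' Set.Iic N) := by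
    have h1 : z (N + 1) ∈ f (N + 1) :=
      Submodule.subset_span ⟨N + 1, Set.mem_Iic.mpr le_rfl, rfl⟩
    have h2 : f N = f (N + 1) := hN (N + 1) (Nat.le_succ N)
    rw [← h2] at h1
    exact h1
  rw [Finsupp.mem_span_image_iff_linearCombination] at hmem
  obtain ⟨l, hl, hlz⟩ := hmem
  rw [Finsupp.linearCombination_apply, Finsupp.sum] at hlz
  -- multiply by `ϖ ^ (N + 1)`
  have hsupp : ∀ j ∈ l.support, j ≤ N := fun j hj => Set.mem_Iic.mp (hl hj)
  have key : u ^ (N + 1) * y =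
      (ϖ * ∑ j ∈ l.support, l j * (ϖ ^ (N - j) * u ^ j)) * y := by
    calc u ^ (N + 1) * y = ϖ ^ (N + 1) * z (N + 1) := hz (N + 1)
      _ = ϖ ^ (N + 1) * ∑ j ∈ l.support, l j • z j := by rw [hlz]
      _ = ∑ j ∈ l.support, l j * (ϖ ^ (N + 1 - j) * (ϖ ^ j * z j)) := by
          rw [Finset.mul_sum]
          refine Finset.sum_congr rfl fun j hj => ?_
          have hjN := hsupp j hj
          have e : ϖ ^ (N + 1) = ϖ ^ (N + 1 - j) * ϖ ^ j := by
            rw [← pow_add]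
            congr 1
            omega
          rw [smul_eq_mul, e]
          ring
      _ = ∑ j ∈ l.support, l j * (ϖ ^ (N + 1 - j) * (u ^ j * y)) := by
          refine Finset.sum_congr rfl fun j _ => ?_
          rw [hz j]
      _ = (ϖ * ∑ j ∈ l.support, l j * (ϖ ^ (N - j) * u ^ j)) * y := by
          rw [Finset.mul_sum, Finset.sum_mul]
          refine Finset.sum_congr rfl fun j hj => ?_
          have hjN := hsupp j hj
          have e : ϖ ^ (N + 1 - j) = ϖ * ϖ ^ (N - j) := by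
            rw [← pow_succ']
            congr 1
            omega
          rw [e]
          ring
  have h3 : u ^ (N + 1) = ϖ * ∑ j ∈ l.support, l j * (ϖ ^ (N - j) * u ^ j) :=
    mul_right_cancel₀ hy key
  exact hun (N + 1) (h3 ▸ Ideal.mul_mem_right _ _ hϖ)

/-- The node case: `J = (ϖ, v)` prime, `u * v = ϖ * w`, `u ∉ J`. -/
theorem exists_pow_mul_eq_of_span (J : Ideal R) [J.IsPrime] (ϖ u v w : R)
    (hJ : J = Ideal.span {ϖ, v}) (huv : u * v = ϖ * w) (hu : u ∉ J)
    {y : R} (hy : y ≠ 0) :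
    ∃ (n : ℕ) (s z : R), s ∉ J ∧ z ∉ J ∧ s * y = ϖ ^ n * z := by
  have hϖJ : ϖ ∈ J := by
    rw [hJ]
    exact Ideal.subset_span (Set.mem_insert _ _)
  refine exists_pow_mul_eq J ϖ u hϖJ hu (fun x hx => ?_) hy
  rw [hJ, Ideal.mem_span_pair] at hx
  obtain ⟨a, b, rfl⟩ := hx
  refine ⟨u * a + b * w, ?_⟩
  calc u * (a * ϖ + b * v) = ϖ * (u * a) + b * (u * v) := by ring
    _ = ϖ * (u * a) + b * (ϖ * w) := by rw [huv]
    _ = ϖ * (u * a + b * w) := by ring

/-- The disc case: `(ϖ)` prime: every `y ≠ 0` is `ϖ ^ n * z` with `ϖ ∤ z`. -/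
theorem exists_eq_pow_mul (ϖ : R) (hp : (Ideal.span {ϖ}).IsPrime) (hϖ0 : ϖ ≠ 0)
    {y : R} (hy : y ≠ 0) :
    ∃ (n : ℕ) (z : R), z ∉ Ideal.span {ϖ} ∧ y = ϖ ^ n * z := by
  have h1 : (1 : R) ∉ Ideal.span {ϖ} := fun h => hp.ne_top ((Ideal.eq_top_iff_one _).mpr h)
  obtain ⟨n, s, z, -, hz, hsy⟩ := exists_pow_mul_eq (Ideal.span {ϖ}) ϖ 1
    (Ideal.subset_span rfl) h1
    (fun x hx => by
      rw [one_mul]
      exact Ideal.mem_span_singleton.mp hx) hy
  -- here `s = 1 ^ n`, but we only know `s ∉ (ϖ)`; redo with divisibility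
  by_contra hcon
  push Not at hcon
  -- `ϖ ^ m ∣ y` for all `m`
  have hall : ∀ m : ℕ, ∃ t : R, y = ϖ ^ m * t := by
    intro m
    induction m with
    | zero => exact ⟨y, by simp⟩
    | succ m ih =>
      obtain ⟨t, ht⟩ := ih
      have htJ : t ∈ Ideal.span {ϖ} := by
        by_contra htJ
        exact hcon m t htJ ht
      obtain ⟨t', rfl⟩ := Ideal.mem_span_singleton.mp htJ
      exact ⟨t', by rw [ht]; ring⟩
  obtain ⟨t, ht⟩ := hall (n + 1)
  -- `s * y = ϖ ^ n * z` and `y = ϖ ^ (n+1) * t` give `z = ϖ * (s * t)`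
  have h2 : ϖ ^ n * z = ϖ ^ n * (ϖ * (s * t)) := by
    rw [← hsy, ht]
    ring
  have h3 : z = ϖ * (s * t) := mul_left_cancel₀ (pow_ne_zero n hϖ0) h2
  exact hz (h3 ▸ Ideal.mul_mem_right _ _ (Ideal.subset_span rfl))

omit [IsNoetherianRing R] in
/-- Uniqueness of the exponent. -/
theorem pow_unique (J : Ideal R) [hJp : J.IsPrime] (ϖ : R) (hϖ : ϖ ∈ J) (hϖ0 : ϖ ≠ 0)
    {y : R} {n n' : ℕ} {s z s' z' : R} (hs : s ∉ J) (hz : z ∉ J) (hs' : s' ∉ J) (hz' : z' ∉ J)
    (h : s * y = ϖ ^ n * z) (h' : s' * y = ϖ ^ n' * z') : n = n' := by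
  -- cross-multiply
  have hx : ϖ ^ n * (z * s') = ϖ ^ n' * (z' * s) := by
    calc ϖ ^ n * (z * s') = (s * y) * s' := by rw [h]; ring
      _ = (s' * y) * s := by ring
      _ = ϖ ^ n' * (z' * s) := by rw [h']; ring
  have hzs' : z * s' ∉ J := fun hm => (hJp.mem_or_mem hm).elim hz hs'
  have hz's : z' * s ∉ J := fun hm => (hJp.mem_or_mem hm).elim hz' hs
  rcases lt_trichotomy n n' with hlt | heq | hgt
  · exfalso
    have e : ϖ ^ n' = ϖ ^ n * ϖ ^ (n' - n) := by
      rw [← pow_add]; congr 1; omega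
    rw [e, mul_assoc] at hx
    have h4 := mul_left_cancel₀ (pow_ne_zero n hϖ0) hx
    apply hzs'
    rw [h4]
    refine Ideal.mul_mem_right _ _ ?_
    have : ϖ ^ (n' - n) = ϖ * ϖ ^ (n' - n - 1) := by
      rw [← pow_succ']; congr 1; omega
    rw [this]
    exact Ideal.mul_mem_right _ _ hϖ
  · exact heq
  · exfalso
    have e : ϖ ^ n = ϖ ^ n' * ϖ ^ (n - n') := by
      rw [← pow_add]; congr 1; omega
    rw [e, mul_assoc] at hx
    have h4 := mul_left_cancel₀ (pow_ne_zero n' hϖ0) hx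
    apply hz's
    rw [← h4]
    refine Ideal.mul_mem_right _ _ ?_
    have : ϖ ^ (n - n') = ϖ * ϖ ^ (n - n' - 1) := by
      rw [← pow_succ']; congr 1; omega
    rw [this]
    exact Ideal.mul_mem_right _ _ hϖ

end DVR

section Valuation

variable {F : Type*} [Field F]

/-- **`O ∩ Frac R = R_J`.**  `R ⊆ O` a subring of a valuation ring of the field `F`, the maximal
ideal of `O` contracting to the prime `J` of `R`, and `R_J` a DVR with uniformizer `ϖ` (in the
elementary form `hdvr`).  Then every `y ∈ O` which is a quotient of elements of `R` has a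
denominator outside `J`. -/
theorem exists_mul_eq_of_mem (R : Subring F) (O : ValuationSubring F) (hRO : ∀ y ∈ R, y ∈ O)
    (J : Ideal R) [hJp : J.IsPrime] (hJO : ∀ y : R, y ∈ J ↔ (y : F) ∈ O.nonunits)
    (ϖ : R) (hϖ : ϖ ∈ J) (hϖ0 : ϖ ≠ 0)
    (hdvr : ∀ y : R, y ≠ 0 → ∃ (n : ℕ) (s z : R), s ∉ J ∧ z ∉ J ∧ s * y = ϖ ^ n * z)
    {y : F} (hy : y ∈ O) {a b : R} (hb : b ≠ 0) (hab : y * (b : F) = (a : F)) :
    ∃ a' s : R, s ∉ J ∧ y * (s : F) = (a' : F) := by
  have hval1 : ∀ s : R, s ∉ J → O.valuation (s : F) = 1 := by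
    intro s hs
    have h1 : O.valuation (s : F) ≤ 1 := (O.valuation_le_one_iff _).mpr (hRO _ s.2)
    have h2 : ¬ O.valuation (s : F) < 1 := fun h =>
      hs ((hJO s).mpr ((O.mem_nonunits_iff).mpr h))
    exact le_antisymm h1 (not_lt.mp h2)
  have hvϖ : O.valuation (ϖ : F) < 1 := (O.mem_nonunits_iff).mp ((hJO ϖ).mp hϖ)
  have hϖF : (ϖ : F) ≠ 0 := fun h => hϖ0 (Subtype.ext h)
  have h1J : (1 : R) ∉ J := fun h => hJp.ne_top ((Ideal.eq_top_iff_one _).mpr h)
  by_cases ha : a = 0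
  · refine ⟨0, 1, h1J, ?_⟩
    have hbF : (b : F) ≠ 0 := fun h => hb (Subtype.ext h)
    rw [ha, Subring.coe_zero] at hab
    have hy0 : y = 0 := (mul_eq_zero.mp hab).resolve_right hbF
    rw [hy0, zero_mul, Subring.coe_zero]
  · obtain ⟨na, sa, za, hsa, hza, hA⟩ := hdvr a ha
    obtain ⟨nb, sb, zb, hsb, hzb, hB⟩ := hdvr b hb
    have hAF : (sa : F) * (a : F) = (ϖ : F) ^ na * (za : F) := by
      have := congrArg (fun t : R => (t : F)) hA
      simpa using this
    have hBF : (sb : F) * (b : F) = (ϖ : F) ^ nb * (zb : F) := by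
      have := congrArg (fun t : R => (t : F)) hB
      simpa using this
    -- the basic identity
    have hid : y * ((sa : F) * (zb : F)) * (ϖ : F) ^ nb = (sb : F) * (za : F) * (ϖ : F) ^ na := by
      calc y * ((sa : F) * (zb : F)) * (ϖ : F) ^ nb
          = y * (sa : F) * ((ϖ : F) ^ nb * (zb : F)) := by ring
        _ = y * (sa : F) * ((sb : F) * (b : F)) := by rw [hBF]
        _ = (sb : F) * ((sa : F) * (y * (b : F))) := by ring
        _ = (sb : F) * ((sa : F) * (a : F)) := by rw [hab]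
        _ = (sb : F) * ((ϖ : F) ^ na * (za : F)) := by rw [hAF]
        _ = (sb : F) * (za : F) * (ϖ : F) ^ na := by ring
    have hle : nb ≤ na := by
      by_contra hlt
      push Not at hlt
      have e : (ϖ : F) ^ nb = (ϖ : F) ^ (nb - na) * (ϖ : F) ^ na := by
        rw [← pow_add]; congr 1; omega
      have hid' : (y * ((sa : F) * (zb : F)) * (ϖ : F) ^ (nb - na)) * (ϖ : F) ^ na =
          ((sb : F) * (za : F)) * (ϖ : F) ^ na := by
        rw [← hid, e]; ring
      have h4 := mul_right_cancel₀ (pow_ne_zero na hϖF) hid'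
      have hv := congrArg O.valuation h4
      simp only [map_mul, map_pow, hval1 sa hsa, hval1 zb hzb, hval1 sb hsb, hval1 za hza,
        mul_one] at hv
      have hyv : O.valuation y ≤ 1 := (O.valuation_le_one_iff _).mpr hy
      have hpos : nb - na ≠ 0 := by omega
      have hlt1 : O.valuation (ϖ : F) ^ (nb - na) < 1 := pow_lt_one₀ zero_le hvϖ hpos
      have : O.valuation y * O.valuation (ϖ : F) ^ (nb - na) < 1 := by
        calc O.valuation y * O.valuation (ϖ : F) ^ (nb - na)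
            ≤ 1 * O.valuation (ϖ : F) ^ (nb - na) := mul_le_mul_left hyv _
          _ = O.valuation (ϖ : F) ^ (nb - na) := one_mul _
          _ < 1 := hlt1
      rw [hv] at this
      exact lt_irrefl _ this
    refine ⟨ϖ ^ (na - nb) * (sb * za), sa * zb, fun hm => (hJp.mem_or_mem hm).elim hsa hzb, ?_⟩
    have e : (ϖ : F) ^ na = (ϖ : F) ^ (na - nb) * (ϖ : F) ^ nb := by
      rw [← pow_add]; congr 1; omega
    have hid' : (y * ((sa : F) * (zb : F))) * (ϖ : F) ^ nb =
        ((ϖ : F) ^ (na - nb) * ((sb : F) * (za : F))) * (ϖ : F) ^ nb := by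
      rw [hid, e]; ring
    have h4 := mul_right_cancel₀ (pow_ne_zero nb hϖF) hid'
    rw [Subring.coe_mul, Subring.coe_mul, Subring.coe_pow, Subring.coe_mul, h4]

end Valuation

end Fermat.Agent.FF3.GaussLoc
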