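import Mathlib
import Fermat.Agent.BR.S0.AnnulusChartOfLevels
import Fermat.Agent.FF3.Expand.Gauss
import Fermat.Agent.FF3.GaussLoc.Abstract

/-!
# Programme I (S33, p-new half), node §4e (GAUSS-LOC), main side (helper15)

`L : S0.AnnulusLevels A (tube S₀ e) ι`, `X : BranchData S₀ e L`, one level `i`,
`R := (L.level i).R`, `ϖ := X.piR i`, `u := X.uR i`, `v := X.vR i`.

Component `src e` (vertical prime `p2 ∋ v`, coordinate `u`):
* `p2_eq_span` : `p2 = span {ϖ, v}`;
* `ker_red₁_eq_span`, `p2_eq_ker_red₁`, `mem_p2_iff` :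
  `p2 = ker (red₁ i) = {y : R | (y : F) ∈ (O (src e)).nonunits}`;
* `exists_pow_mul_eq_p2` : `R_{p2}` is a DVR with uniformizer `ϖ`:
  `∀ y ≠ 0, ∃ n s z, s ∉ p2 ∧ z ∉ p2 ∧ s * y = ϖ ^ n * z`;
* `valuation_src_eq_one`, `isUnit_src_of_notMem_p2` : the elements of `R \ p2` are units of
  `O (src e)`; `valuation_src_eq_pow` : the Gauss valuation of `y` is `|ϖ| ^ n`;
* `exists_mul_eq_of_mem_src` : `O (src e) ∩ Frac R = R_{p2}`.

Component `tgt e` (vertical prime `p1 ∋ u`, coordinate `v`): the same statements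
`p1_eq_span`, `p1_eq_ker_red₂`, `mem_p1_iff`, `exists_pow_mul_eq_p1`, `valuation_tgt_eq_one`,
`isUnit_tgt_of_notMem_p1`, `valuation_tgt_eq_pow`, `exists_mul_eq_of_mem_tgt`.
-/

set_option autoImplicit false
set_option linter.unusedSectionVars false
set_option linter.style.haveILetI false

noncomputable section

namespace Fermat.Agent.FF3.GaussLoc

open AlgebraicCurve IsLocalRing Fermat.Agent.Red Fermat.Agent.BR.Centre Fermat.Agent.BR.SS
  Fermat.Agent.BR.Refine Fermat.Agent.BR.Circle Fermat.Agent.BR.S0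
  Fermat.Agent.BR.S0.AnnulusChartOfLevels

variable {K : Type} {F : Type*} [Field K] [Field F] [Algebra K F]
  {A : ValuationSubring K} [IsAlgClosed (ResidueField A)]
  {ι₀ : Type} {Ft₀ : ι₀ → Type} [∀ v, Field (Ft₀ v)] [∀ v, Algebra (ResidueField A) (Ft₀ v)]
  {ν₀ : Type}
  {S₀ : SemistableSetup (F := F) A (residue A) ι₀ Ft₀ ν₀} {e : ν₀} {ι : Type*}
  {L : AnnulusLevels A (tube S₀ e) ι} (X : BranchData S₀ e L) (i : ι)

/-! ### Generalities -/

/-- membership in the maximal ideal of a component = vanishing of the reduction -/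
theorem mem_nonunits_iff_res (w : ι₀) {x : F} (h : x ∈ S₀.O w) :
    x ∈ (S₀.O w).nonunits ↔ S₀.res w ⟨x, h⟩ = 0 := by
  rw [S₀.res_eq_zero_iff, (S₀.O w).mem_nonunits_iff]
  have h1 : (S₀.O w).valuation x ≤ 1 := ((S₀.O w).valuation_le_one_iff x).mpr h
  have h2 := (S₀.O w).valuation_eq_one_iff ⟨x, h⟩
  constructor
  · intro hlt hu
    rw [h2] at hu
    exact absurd hu (ne_of_lt hlt)
  · intro hnu
    exact lt_of_le_of_ne h1 (fun h3 => hnu (h2.mpr h3))

/-- the thickness is a multiple of the uniformizer of the level: `u * v = ϖ * w` in `R`. -/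
def wR (i : ι) : (L.level i).R :=
  ⟨algebraMap K F (L.thick * ((L.level i).ϖ)⁻¹) * L.ε₀, by
    refine (L.level i).R.mul_mem ((L.level i).const_mem _ ?_ ?_) (L.level i).ε₀_mem
    · exact (L.level i).K'.mul_mem (L.level i).thick_mem
        ((L.level i).K'.inv_mem (L.level i).unif_mem)
    · rw [← A.valuation_le_one_iff, map_mul, map_inv₀]
      have h1 := (L.level i).unif_max L.thick (L.level i).thick_mem L.thick_lt
      have h0 : A.valuation (L.level i).ϖ ≠ 0 :=
        (Valuation.ne_zero_iff _).mpr (L.level i).unif_ne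
      calc A.valuation L.thick * (A.valuation (L.level i).ϖ)⁻¹
          ≤ A.valuation (L.level i).ϖ * (A.valuation (L.level i).ϖ)⁻¹ :=
            mul_le_mul_left h1 _
        _ = 1 := mul_inv_cancel₀ h0⟩

include X

theorem uR_mul_vR (i : ι) : X.uR i * X.vR i = X.piR i * wR (L := L) i := by
  apply Subtype.ext
  simp only [BranchData.uR, BranchData.vR, BranchData.piR, wR, Subring.coe_mul]
  rw [L.uv, Algebra.smul_def, ← mul_assoc, ← map_mul]
  congr 2
  rw [mul_comm L.thick, ← mul_assoc, mul_inv_cancel₀ (L.level i).unif_ne, one_mul]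

theorem piR_ne_zero (i : ι) : X.piR i ≠ 0 := by
  intro h
  have h1 : algebraMap K F (L.level i).ϖ = 0 := congrArg Subtype.val h
  exact (L.level i).unif_ne ((map_eq_zero _).mp h1)

/-- the maximal ideal of the level is `(ϖ, v) + (u)` -/
theorem maximalIdeal_le_sup_u (i : ι) :
    haveI := (L.level i).isLocal
    maximalIdeal (L.level i).R ≤ Ideal.span {X.piR i, X.vR i} ⊔ Ideal.span {X.uR i} := by
  haveI := (L.level i).isLocal
  intro y hy
  have h1 := (L.level i).nonunit_mem y ((mem_maximalIdeal y).mp hy)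
  rw [Ideal.mem_span_insert] at h1
  obtain ⟨a, z, hz, rfl⟩ := h1
  rw [Ideal.mem_span_pair] at hz
  obtain ⟨b, c, rfl⟩ := hz
  refine Submodule.mem_sup.mpr ⟨a * X.piR i + c * X.vR i, ?_, b * X.uR i, ?_, ?_⟩
  · exact Ideal.mem_span_pair.mpr ⟨a, c, rfl⟩
  · exact Ideal.mem_span_singleton'.mpr ⟨b, rfl⟩
  · simp only [BranchData.piR, BranchData.uR, BranchData.vR]
    ring

/-- the maximal ideal of the level is `(ϖ, u) + (v)` -/
theorem maximalIdeal_le_sup_v (i : ι) :
    haveI := (L.level i).isLocal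
    maximalIdeal (L.level i).R ≤ Ideal.span {X.piR i, X.uR i} ⊔ Ideal.span {X.vR i} := by
  haveI := (L.level i).isLocal
  intro y hy
  have h1 := (L.level i).nonunit_mem y ((mem_maximalIdeal y).mp hy)
  rw [Ideal.mem_span_insert] at h1
  obtain ⟨a, z, hz, rfl⟩ := h1
  rw [Ideal.mem_span_pair] at hz
  obtain ⟨b, c, rfl⟩ := hz
  refine Submodule.mem_sup.mpr ⟨a * X.piR i + b * X.uR i, ?_, c * X.vR i, ?_, ?_⟩
  · exact Ideal.mem_span_pair.mpr ⟨a, b, rfl⟩
  · exact Ideal.mem_span_singleton'.mpr ⟨c, rfl⟩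
  · simp only [BranchData.piR, BranchData.uR, BranchData.vR]
    ring

theorem uR_mem_maximalIdeal (i : ι) :
    haveI := (L.level i).isLocal
    X.uR i ∈ maximalIdeal (L.level i).R := by
  haveI := (L.level i).isLocal
  exact (mem_maximalIdeal _).mpr (X.uR_not_isUnit i)

theorem vR_mem_maximalIdeal (i : ι) :
    haveI := (L.level i).isLocal
    X.vR i ∈ maximalIdeal (L.level i).R := by
  haveI := (L.level i).isLocal
  exact (mem_maximalIdeal _).mpr (X.vR_not_isUnit i)

/-! ### The component `src e` -/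

/-- `u` does not vanish identically on `src e` -/
theorem red₁_uR_ne_zero (i : ι) : X.red₁ i (X.uR i) ≠ 0 := by
  intro h0
  have h1 := X.ord_src
  have h2 : S₀.res (S₀.src e) ⟨L.u, X.u_src⟩ = X.red₁ i (X.uR i) := rfl
  rw [h2, h0, Place.ord_zero] at h1
  exact zero_ne_one h1

/-- **(a)** `p2 = (ϖ, v)`. -/
theorem p2_eq_span (i : ι) : (L.level i).p2 = Ideal.span {X.piR i, X.vR i} := by
  haveI := (L.level i).isLocal
  haveI := (L.level i).noeth
  haveI := (L.level i).prime2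
  refine Expand.prime_eq_of_le _ (X.uR i) (uR_mem_maximalIdeal X i) (maximalIdeal_le_sup_u X i)
    (L.level i).p2 ?_ (L.level i).u_notMem_p2
  rw [Ideal.span_le]
  intro y hy
  rcases hy with rfl | rfl
  · exact (L.level i).unif_mem_p2
  · exact (L.level i).v_mem_p2

/-- **(a)** the kernel of the reduction to `src e` is `(ϖ, v)`. -/
theorem ker_red₁_eq_span (i : ι) :
    RingHom.ker (X.red₁ i) = Ideal.span {X.piR i, X.vR i} := by
  haveI := (L.level i).isLocal
  haveI := (L.level i).noeth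
  haveI : (RingHom.ker (X.red₁ i)).IsPrime := RingHom.ker_isPrime _
  refine Expand.prime_eq_of_le _ (X.uR i) (uR_mem_maximalIdeal X i) (maximalIdeal_le_sup_u X i)
    (RingHom.ker (X.red₁ i)) ?_ (fun h => red₁_uR_ne_zero X i ((RingHom.mem_ker).mp h))
  rw [Ideal.span_le]
  intro y hy
  rcases hy with rfl | rfl
  · exact (RingHom.mem_ker).mpr (X.red₁_piR i)
  · exact (RingHom.mem_ker).mpr (X.red₁_vR i)

theorem p2_eq_ker_red₁ (i : ι) : (L.level i).p2 = RingHom.ker (X.red₁ i) := by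
  rw [p2_eq_span X i, ker_red₁_eq_span X i]

/-- **(a)** `p2 = R ∩ 𝔪_{O (src e)}`. -/
theorem mem_p2_iff (i : ι) (y : (L.level i).R) :
    y ∈ (L.level i).p2 ↔ (y : F) ∈ (S₀.O (S₀.src e)).nonunits := by
  rw [p2_eq_ker_red₁ X i, RingHom.mem_ker, X.red₁_apply,
    mem_nonunits_iff_res (S₀ := S₀) (S₀.src e) (X.le₁ i y y.2)]

/-- **(b)** `R_{p2}` is a discrete valuation ring with uniformizer `ϖ`. -/
theorem exists_pow_mul_eq_p2 (i : ι) {y : (L.level i).R} (hy : y ≠ 0) :
    ∃ (n : ℕ) (s z : (L.level i).R), s ∉ (L.level i).p2 ∧ z ∉ (L.level i).p2 ∧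
      s * y = X.piR i ^ n * z := by
  haveI := (L.level i).noeth
  haveI := (L.level i).prime2
  exact exists_pow_mul_eq_of_span (L.level i).p2 (X.piR i) (X.uR i) (X.vR i) (wR (L := L) i)
    (p2_eq_span X i) (uR_mul_vR X i) (L.level i).u_notMem_p2 hy

/-- the elements of `R \ p2` have Gauss valuation `1` on `src e` -/
theorem valuation_src_eq_one (i : ι) {s : (L.level i).R} (hs : s ∉ (L.level i).p2) :
    (S₀.O (S₀.src e)).valuation (s : F) = 1 := by
  have h1 : (S₀.O (S₀.src e)).valuation (s : F) ≤ 1 :=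
    ((S₀.O (S₀.src e)).valuation_le_one_iff _).mpr (X.le₁ i s s.2)
  have h2 : ¬ (S₀.O (S₀.src e)).valuation (s : F) < 1 := fun h =>
    hs ((mem_p2_iff X i s).mpr (((S₀.O (S₀.src e)).mem_nonunits_iff).mpr h))
  exact le_antisymm h1 (not_lt.mp h2)

/-- **(c)** the elements of `R \ p2` are units of `O (src e)` -/
theorem isUnit_src_of_notMem_p2 (i : ι) {s : (L.level i).R} (hs : s ∉ (L.level i).p2) :
    IsUnit (⟨(s : F), X.le₁ i s s.2⟩ : S₀.O (S₀.src e)) :=
  ((S₀.O (S₀.src e)).valuation_eq_one_iff _).mpr (valuation_src_eq_one X i hs)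

/-- the Gauss valuation on `src e` of `y = ϖ ^ n * z / s` is `|ϖ| ^ n` -/
theorem valuation_src_eq_pow (i : ι) {y s z : (L.level i).R} {n : ℕ}
    (hs : s ∉ (L.level i).p2) (hz : z ∉ (L.level i).p2) (h : s * y = X.piR i ^ n * z) :
    (S₀.O (S₀.src e)).valuation (y : F) =
      (S₀.O (S₀.src e)).valuation (algebraMap K F (L.level i).ϖ) ^ n := by
  have h1 := congrArg (fun t : (L.level i).R => (S₀.O (S₀.src e)).valuation (t : F)) h
  simp only [Subring.coe_mul, Subring.coe_pow, map_mul, map_pow, valuation_src_eq_one X i hs,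
    valuation_src_eq_one X i hz, one_mul, mul_one] at h1
  exact h1

/-- **(c)** `O (src e) ∩ Frac R = R_{p2}`. -/
theorem exists_mul_eq_of_mem_src (i : ι) {y : F} (hy : y ∈ S₀.O (S₀.src e))
    {a b : (L.level i).R} (hb : b ≠ 0) (hab : y * (b : F) = (a : F)) :
    ∃ a' s : (L.level i).R, s ∉ (L.level i).p2 ∧ y * (s : F) = (a' : F) := by
  haveI := (L.level i).prime2
  exact exists_mul_eq_of_mem (L.level i).R (S₀.O (S₀.src e)) (fun y hy => X.le₁ i y hy)
    (L.level i).p2 (mem_p2_iff X i) (X.piR i) (L.level i).unif_mem_p2 (piR_ne_zero X i)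
    (fun y hy => exists_pow_mul_eq_p2 X i hy) hy hb hab

/-! ### The component `tgt e` -/

/-- `v` does not vanish identically on `tgt e` -/
theorem red₂_vR_ne_zero (i : ι) : X.red₂ i (X.vR i) ≠ 0 := by
  intro h0
  have h1 := X.ord_tgt
  -- `thick / u = v * ε₀⁻¹`
  let εi : (L.level i).R := ⟨L.ε₀⁻¹, (L.level i).ε₀_inv_mem⟩
  have hprod : S₀.res (S₀.tgt e) ⟨L.thick • L.u⁻¹, X.v_tgt⟩ =
      X.red₂ i (X.vR i) * X.red₂ i εi := by
    rw [← map_mul, X.red₂_apply]
    congr 1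
    apply Subtype.ext
    simp only [BranchData.vR, εi, Subring.coe_mul]
    exact X.thick_smul_inv_eq
  rw [hprod, h0, zero_mul, Place.ord_zero] at h1
  exact zero_ne_one h1

/-- **(d)** `p1 = (ϖ, u)`. -/
theorem p1_eq_span (i : ι) : (L.level i).p1 = Ideal.span {X.piR i, X.uR i} := by
  haveI := (L.level i).isLocal
  haveI := (L.level i).noeth
  haveI := (L.level i).prime1
  refine Expand.prime_eq_of_le _ (X.vR i) (vR_mem_maximalIdeal X i) (maximalIdeal_le_sup_v X i)
    (L.level i).p1 ?_ (L.level i).v_notMem_p1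
  rw [Ideal.span_le]
  intro y hy
  rcases hy with rfl | rfl
  · exact (L.level i).unif_mem_p1
  · exact (L.level i).u_mem_p1

/-- **(d)** the kernel of the reduction to `tgt e` is `(ϖ, u)`. -/
theorem ker_red₂_eq_span (i : ι) :
    RingHom.ker (X.red₂ i) = Ideal.span {X.piR i, X.uR i} := by
  haveI := (L.level i).isLocal
  haveI := (L.level i).noeth
  haveI : (RingHom.ker (X.red₂ i)).IsPrime := RingHom.ker_isPrime _
  refine Expand.prime_eq_of_le _ (X.vR i) (vR_mem_maximalIdeal X i) (maximalIdeal_le_sup_v X i)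
    (RingHom.ker (X.red₂ i)) ?_ (fun h => red₂_vR_ne_zero X i ((RingHom.mem_ker).mp h))
  rw [Ideal.span_le]
  intro y hy
  rcases hy with rfl | rfl
  · exact (RingHom.mem_ker).mpr (X.red₂_piR i)
  · exact (RingHom.mem_ker).mpr (X.red₂_uR i)

theorem p1_eq_ker_red₂ (i : ι) : (L.level i).p1 = RingHom.ker (X.red₂ i) := by
  rw [p1_eq_span X i, ker_red₂_eq_span X i]

/-- **(d)** `p1 = R ∩ 𝔪_{O (tgt e)}`. -/
theorem mem_p1_iff (i : ι) (y : (L.level i).R) :
    y ∈ (L.level i).p1 ↔ (y : F) ∈ (S₀.O (S₀.tgt e)).nonunits := by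
  rw [p1_eq_ker_red₂ X i, RingHom.mem_ker, X.red₂_apply,
    mem_nonunits_iff_res (S₀ := S₀) (S₀.tgt e) (X.le₂ i y y.2)]

/-- **(d)** `R_{p1}` is a discrete valuation ring with uniformizer `ϖ`. -/
theorem exists_pow_mul_eq_p1 (i : ι) {y : (L.level i).R} (hy : y ≠ 0) :
    ∃ (n : ℕ) (s z : (L.level i).R), s ∉ (L.level i).p1 ∧ z ∉ (L.level i).p1 ∧
      s * y = X.piR i ^ n * z := by
  haveI := (L.level i).noeth
  haveI := (L.level i).prime1
  refine exists_pow_mul_eq_of_span (L.level i).p1 (X.piR i) (X.vR i) (X.uR i) (wR (L := L) i)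
    (p1_eq_span X i) ?_ (L.level i).v_notMem_p1 hy
  rw [mul_comm]
  exact uR_mul_vR X i

/-- the elements of `R \ p1` have Gauss valuation `1` on `tgt e` -/
theorem valuation_tgt_eq_one (i : ι) {s : (L.level i).R} (hs : s ∉ (L.level i).p1) :
    (S₀.O (S₀.tgt e)).valuation (s : F) = 1 := by
  have h1 : (S₀.O (S₀.tgt e)).valuation (s : F) ≤ 1 :=
    ((S₀.O (S₀.tgt e)).valuation_le_one_iff _).mpr (X.le₂ i s s.2)
  have h2 : ¬ (S₀.O (S₀.tgt e)).valuation (s : F) < 1 := fun h =>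
    hs ((mem_p1_iff X i s).mpr (((S₀.O (S₀.tgt e)).mem_nonunits_iff).mpr h))
  exact le_antisymm h1 (not_lt.mp h2)

/-- **(d)** the elements of `R \ p1` are units of `O (tgt e)` -/
theorem isUnit_tgt_of_notMem_p1 (i : ι) {s : (L.level i).R} (hs : s ∉ (L.level i).p1) :
    IsUnit (⟨(s : F), X.le₂ i s s.2⟩ : S₀.O (S₀.tgt e)) :=
  ((S₀.O (S₀.tgt e)).valuation_eq_one_iff _).mpr (valuation_tgt_eq_one X i hs)

/-- the Gauss valuation on `tgt e` of `y = ϖ ^ n * z / s` is `|ϖ| ^ n` -/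
theorem valuation_tgt_eq_pow (i : ι) {y s z : (L.level i).R} {n : ℕ}
    (hs : s ∉ (L.level i).p1) (hz : z ∉ (L.level i).p1) (h : s * y = X.piR i ^ n * z) :
    (S₀.O (S₀.tgt e)).valuation (y : F) =
      (S₀.O (S₀.tgt e)).valuation (algebraMap K F (L.level i).ϖ) ^ n := by
  have h1 := congrArg (fun t : (L.level i).R => (S₀.O (S₀.tgt e)).valuation (t : F)) h
  simp only [Subring.coe_mul, Subring.coe_pow, map_mul, map_pow, valuation_tgt_eq_one X i hs,
    valuation_tgt_eq_one X i hz, one_mul, mul_one] at h1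
  exact h1

/-- **(d)** `O (tgt e) ∩ Frac R = R_{p1}`. -/
theorem exists_mul_eq_of_mem_tgt (i : ι) {y : F} (hy : y ∈ S₀.O (S₀.tgt e))
    {a b : (L.level i).R} (hb : b ≠ 0) (hab : y * (b : F) = (a : F)) :
    ∃ a' s : (L.level i).R, s ∉ (L.level i).p1 ∧ y * (s : F) = (a' : F) := by
  haveI := (L.level i).prime1
  exact exists_mul_eq_of_mem (L.level i).R (S₀.O (S₀.tgt e)) (fun y hy => X.le₂ i y hy)
    (L.level i).p1 (mem_p1_iff X i) (X.piR i) (L.level i).unif_mem_p1 (piR_ne_zero X i)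
    (fun y hy => exists_pow_mul_eq_p1 X i hy) hy hb hab

end Fermat.Agent.FF3.GaussLoc
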