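import Mathlib
import Fermat.Agent.FF3.ExpandDisc.Loc
import Fermat.Agent.FF3.GaussLoc.Node

/-!
# Programme I (S33, p-new half), node §4e (GAUSS-LOC), localisation form (helper15)

The nodal twin of helper25's `FF3/ExpandDisc/Loc.lean`, in a generic form.

`VertData R O` : a subring `R` of a field `F`, contained in a valuation ring `O` whose maximal ideal
contracts to the prime `J` of `R`, such that `R_J` is a DVR with uniformizer `ϖ` (elementary form).
Then, with `gaussRingOf R O := O ∩ Frac R` (helper25's `fracSubring`):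

* `VertData.exists_valuation_eq_zpow` : the valuation of `O` on `Frac R` is discrete, generated by
  the value of `ϖ`; `VertData.div_unif_mem` (H1), `VertData.eq_zero_of_forall_div_pow_mem` (H2) :
  the two inputs of helper16's `DVCompl.Datum` for `O₀ = O ∩ Frac R`, `w = ϖ`;
* `VertData.isLocalization_gaussRingOf` : `O ∩ Frac R` is the localisation of `R` at `J`;
* `VertData.gaussLift D ψ hψ : gaussRingOf R O →+* E` for every `ψ : R →+* E` inverting `R \ J`,
  `gaussLift_toGauss`, `gaussLift_unique`.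

Node instances (main's `BranchData X`, level `i`): `vertData₁ X i` (component `src e`, prime `p2`),
`vertData₂ X i` (component `tgt e`, prime `p1`), `gaussRing₁`, `gaussRing₂`,
`isUnit_map_of_notMem_p2/_p1` (helper5's `isUnit_map_of_notMem` at the level),
`gaussLift₁_of_local`, `gaussLift₂_of_local` : a ring hom `ψ : R_i →+* E` to a local ring with
`ψ ϖ, ψ v ∈ 𝔪_E` and `ψ u` a unit (resp. `ψ ϖ, ψ u ∈ 𝔪_E`, `ψ v` a unit) extends uniquely to
`O (src e) ∩ Frac R_i` (resp. `O (tgt e) ∩ Frac R_i`) — the maps `b1`, `b2` of `Glue.Node` before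
completion.
-/

set_option autoImplicit false
set_option linter.unusedSectionVars false
set_option linter.style.haveILetI false

noncomputable section

namespace Fermat.Agent.FF3.GaussLoc

open AlgebraicCurve IsLocalRing Fermat.Agent.Red Fermat.Agent.BR.Centre Fermat.Agent.BR.SS
  Fermat.Agent.BR.Refine Fermat.Agent.BR.Circle Fermat.Agent.BR.S0
  Fermat.Agent.BR.S0.AnnulusChartOfLevels Fermat.Agent.FF3.ExpandDisc

/-! ### The generic form -/

section Generic

variable {F : Type*} [Field F]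

/-- `O ∩ Frac R`: the valuation ring `O` restricted to the fraction field of `R`. -/
def gaussRingOf (R : Subring F) (O : ValuationSubring F) : Subring F :=
  O.toSubring ⊓ fracSubring R

theorem mem_gaussRingOf {R : Subring F} {O : ValuationSubring F} {y : F} :
    y ∈ gaussRingOf R O ↔ y ∈ O ∧ IsFrac R y := Iff.rfl

/-- A subring `R ⊆ O` of a valuation ring whose maximal ideal contracts to the prime `J` of `R`,
with `R_J` a DVR with uniformizer `ϖ` (elementary form). -/
structure VertData (R : Subring F) (O : ValuationSubring F) where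
  le : ∀ y ∈ R, y ∈ O
  /-- the vertical prime -/
  J : Ideal R
  prime : J.IsPrime
  mem_iff : ∀ y : R, y ∈ J ↔ (y : F) ∈ O.nonunits
  /-- the uniformizer -/
  ϖ : R
  unif_mem : ϖ ∈ J
  unif_ne : ϖ ≠ 0
  dvr : ∀ y : R, y ≠ 0 → ∃ (n : ℕ) (s z : R), s ∉ J ∧ z ∉ J ∧ s * y = ϖ ^ n * z

namespace VertData

variable {R : Subring F} {O : ValuationSubring F} (D : VertData R O)

include D

theorem le_gaussRingOf : R ≤ gaussRingOf R O := fun y hy => ⟨D.le y hy, IsFrac.of_mem hy⟩

/-- the inclusion of `R` in `O ∩ Frac R` -/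
def toGauss : R →+* gaussRingOf R O := Subring.inclusion D.le_gaussRingOf

@[simp] theorem coe_toGauss (y : R) : ((D.toGauss y : gaussRingOf R O) : F) = (y : F) := rfl

theorem toGauss_injective : Function.Injective D.toGauss := Subring.inclusion_injective _

theorem valuation_eq_one {s : R} (hs : s ∉ D.J) : O.valuation (s : F) = 1 := by
  have h1 : O.valuation (s : F) ≤ 1 := (O.valuation_le_one_iff _).mpr (D.le _ s.2)
  have h2 : ¬ O.valuation (s : F) < 1 := fun h =>
    hs ((D.mem_iff s).mpr ((O.mem_nonunits_iff).mpr h))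
  exact le_antisymm h1 (not_lt.mp h2)

theorem valuation_unif_lt_one : O.valuation (D.ϖ : F) < 1 :=
  (O.mem_nonunits_iff).mp ((D.mem_iff D.ϖ).mp D.unif_mem)

theorem unif_coe_ne_zero : (D.ϖ : F) ≠ 0 := fun h => D.unif_ne (Subtype.ext h)

theorem valuation_unif_ne_zero : O.valuation (D.ϖ : F) ≠ 0 :=
  (Valuation.ne_zero_iff _).mpr D.unif_coe_ne_zero

/-- the valuation of `y = ϖ ^ n * z / s` is `|ϖ| ^ n` -/
theorem valuation_eq_pow {y s z : R} {n : ℕ} (hs : s ∉ D.J) (hz : z ∉ D.J)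
    (h : s * y = D.ϖ ^ n * z) : O.valuation (y : F) = O.valuation (D.ϖ : F) ^ n := by
  have h1 := congrArg (fun t : R => O.valuation (t : F)) h
  simp only [Subring.coe_mul, Subring.coe_pow, map_mul, map_pow, D.valuation_eq_one hs,
    D.valuation_eq_one hz, one_mul, mul_one] at h1
  exact h1

/-- **The valuation of `O` on `Frac R` is discrete**, generated by the value of `ϖ`. -/
theorem exists_valuation_eq_zpow {y : F} (hy : IsFrac R y) (hy0 : y ≠ 0) :
    ∃ n : ℤ, O.valuation y = O.valuation (D.ϖ : F) ^ n := by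
  obtain ⟨a, b, hb, hab⟩ := hy
  have hbF : (b : F) ≠ 0 := fun h => hb (Subtype.ext h)
  have ha : a ≠ 0 := by
    rintro rfl
    rw [ZeroMemClass.coe_zero] at hab
    exact (mul_ne_zero hy0 hbF) hab
  obtain ⟨m, sa, za, hsa, hza, hA⟩ := D.dvr a ha
  obtain ⟨n, sb, zb, hsb, hzb, hB⟩ := D.dvr b hb
  have hva := D.valuation_eq_pow hsa hza hA
  have hvb := D.valuation_eq_pow hsb hzb hB
  have hvw0 := D.valuation_unif_ne_zero
  refine ⟨(m : ℤ) - n, ?_⟩
  have h1 : O.valuation y * O.valuation (D.ϖ : F) ^ n = O.valuation (D.ϖ : F) ^ m := by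
    rw [← hvb, ← hva, ← map_mul, hab]
  rw [zpow_sub₀ hvw0, zpow_natCast, zpow_natCast, ← h1, mul_div_assoc,
    div_self (pow_ne_zero n hvw0), mul_one]

/-- **(H1)**: an element of `O ∩ Frac R` of valuation `< 1` is divisible by `ϖ` in
`O ∩ Frac R`. -/
theorem div_unif_mem {y : F} (hy : y ∈ gaussRingOf R O) (hlt : O.valuation y < 1) :
    y / (D.ϖ : F) ∈ gaussRingOf R O := by
  have hϖF : IsFrac R (D.ϖ : F) := IsFrac.of_mem D.ϖ.2
  have hfr : IsFrac R (y / (D.ϖ : F)) := by
    rw [div_eq_mul_inv]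
    exact hy.2.mul hϖF.inv
  refine ⟨?_, hfr⟩
  show y / (D.ϖ : F) ∈ O
  rcases eq_or_ne y 0 with rfl | hy0
  · rw [zero_div]
    exact O.zero_mem
  obtain ⟨n, hn⟩ := D.exists_valuation_eq_zpow hy.2 hy0
  have hvw := D.valuation_unif_lt_one
  have hvw0 := D.valuation_unif_ne_zero
  have hvwpos : 0 < O.valuation (D.ϖ : F) := zero_lt_iff.mpr hvw0
  have hn1 : 1 ≤ n := by
    by_contra hcon
    push Not at hcon
    have hn0 : n ≤ 0 := by omega
    have : 1 ≤ O.valuation (D.ϖ : F) ^ n := by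
      obtain ⟨m, rfl⟩ : ∃ m : ℕ, n = -(m : ℤ) := ⟨(-n).toNat, by omega⟩
      rw [zpow_neg, zpow_natCast]
      exact (one_le_inv₀ (pow_pos hvwpos m)).mpr (pow_le_one₀ zero_le hvw.le)
    rw [← hn] at this
    exact absurd hlt (not_lt.mpr this)
  rw [← O.valuation_le_one_iff, map_div₀, hn]
  have e : O.valuation (D.ϖ : F) ^ n / O.valuation (D.ϖ : F) =
      O.valuation (D.ϖ : F) ^ (n - 1) := by
    rw [zpow_sub₀ hvw0, zpow_one]
  rw [e]
  obtain ⟨m, hm⟩ : ∃ m : ℕ, n - 1 = (m : ℤ) := ⟨(n - 1).toNat, by omega⟩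
  rw [hm, zpow_natCast]
  exact pow_le_one₀ zero_le hvw.le

/-- **(H2)**: an element of `Frac R` divisible in `O` by all the powers of `ϖ` is zero. -/
theorem eq_zero_of_forall_div_pow_mem {y : F} (hy : IsFrac R y)
    (h : ∀ n : ℕ, y / (D.ϖ : F) ^ n ∈ O) : y = 0 := by
  by_contra hy0
  obtain ⟨n, hn⟩ := D.exists_valuation_eq_zpow hy hy0
  have hvw := D.valuation_unif_lt_one
  have hvw0 := D.valuation_unif_ne_zero
  have hvwpos : 0 < O.valuation (D.ϖ : F) := zero_lt_iff.mpr hvw0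
  obtain ⟨N, hN⟩ : ∃ N : ℕ, n < (N : ℤ) := ⟨(n + 1).toNat, by omega⟩
  have h1 := (O.valuation_le_one_iff _).mpr (h N)
  rw [map_div₀, map_pow, hn, ← zpow_natCast, ← zpow_sub₀ hvw0] at h1
  obtain ⟨m, hm⟩ : ∃ m : ℕ, n - (N : ℤ) = -((m : ℤ) + 1) := ⟨(N - n - 1).toNat, by omega⟩
  rw [hm, zpow_neg, ← Nat.cast_succ, zpow_natCast] at h1
  have h2 : O.valuation (D.ϖ : F) ^ (m + 1) < 1 :=
    pow_lt_one₀ zero_le hvw (Nat.succ_ne_zero m)
  have h3 : 1 < (O.valuation (D.ϖ : F) ^ (m + 1))⁻¹ :=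
    (one_lt_inv₀ (pow_pos hvwpos _)).mpr h2
  exact absurd h1 (not_le.mpr h3)

/-- an element of `R \ J` is a unit of `O ∩ Frac R` -/
theorem isUnit_toGauss_of_notMem {s : R} (hs : s ∉ D.J) : IsUnit (D.toGauss s) := by
  have h1 := D.valuation_eq_one hs
  have hs0 : (s : F) ≠ 0 := by
    intro h0
    rw [h0, map_zero] at h1
    exact zero_ne_one h1
  have hinv : (s : F)⁻¹ ∈ gaussRingOf R O := by
    refine ⟨?_, (IsFrac.of_mem s.2).inv⟩
    show (s : F)⁻¹ ∈ O
    rw [← O.valuation_le_one_iff, map_inv₀, h1, inv_one]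
  refine isUnit_iff_exists_inv.mpr ⟨⟨_, hinv⟩, ?_⟩
  apply Subtype.ext
  show (s : F) * (s : F)⁻¹ = 1
  exact mul_inv_cancel₀ hs0

/-- **`O ∩ Frac R` is the localisation of `R` at the vertical prime `J`.** -/
theorem isLocalization_gaussRingOf :
    haveI := D.prime
    @IsLocalization R _ D.J.primeCompl (gaussRingOf R O) _ D.toGauss.toAlgebra := by
  haveI := D.prime
  letI := D.toGauss.toAlgebra
  refine ⟨⟨?_, ?_, ?_⟩⟩
  · rintro ⟨s, hs⟩
    exact D.isUnit_toGauss_of_notMem hs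
  · intro z
    obtain ⟨hzO, a, b, hb, hab⟩ := z.2
    obtain ⟨a', s, hs, has⟩ := exists_mul_eq_of_mem R O D.le D.J D.mem_iff D.ϖ D.unif_mem
      D.unif_ne D.dvr hzO hb hab
    refine ⟨⟨a', ⟨s, hs⟩⟩, ?_⟩
    apply Subtype.ext
    exact has
  · intro x y hxy
    refine ⟨1, ?_⟩
    have : x = y := D.toGauss_injective hxy
    rw [this]

/-- **The lift to `O ∩ Frac R`** of a homomorphism inverting `R \ J`. -/
def gaussLift {E : Type*} [CommRing E] (ψ : R →+* E)
    (hψ : ∀ s : R, s ∉ D.J → IsUnit (ψ s)) : gaussRingOf R O →+* E :=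
  haveI := D.prime
  letI := D.toGauss.toAlgebra
  haveI := D.isLocalization_gaussRingOf
  IsLocalization.lift (M := D.J.primeCompl) (S := gaussRingOf R O) (g := ψ) fun s => hψ s.1 s.2

theorem gaussLift_toGauss {E : Type*} [CommRing E] (ψ : R →+* E)
    (hψ : ∀ s : R, s ∉ D.J → IsUnit (ψ s)) (y : R) :
    D.gaussLift ψ hψ (D.toGauss y) = ψ y := by
  haveI := D.prime
  letI := D.toGauss.toAlgebra
  haveI := D.isLocalization_gaussRingOf
  exact IsLocalization.lift_eq (M := D.J.primeCompl) (S := gaussRingOf R O) _ y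

theorem gaussLift_unique {E : Type*} [CommRing E] (ψ : R →+* E)
    (hψ : ∀ s : R, s ∉ D.J → IsUnit (ψ s)) (Ψ : gaussRingOf R O →+* E)
    (hΨ : ∀ y : R, Ψ (D.toGauss y) = ψ y) : Ψ = D.gaussLift ψ hψ := by
  haveI := D.prime
  letI := D.toGauss.toAlgebra
  haveI := D.isLocalization_gaussRingOf
  refine IsLocalization.ringHom_ext D.J.primeCompl ?_
  ext y
  show Ψ (D.toGauss y) = D.gaussLift ψ hψ (D.toGauss y)
  rw [hΨ, gaussLift_toGauss]

/-- **Extensionality on `O ∩ Frac R`** (target-agnostic): two ring homomorphisms out of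
`O ∩ Frac R = R_J` which agree on `R` are equal. -/
theorem ringHom_ext {C : Type*} [Semiring C] {A B : gaussRingOf R O →+* C}
    (hAB : ∀ y : R, A (D.toGauss y) = B (D.toGauss y)) : A = B := by
  haveI := D.prime
  letI := D.toGauss.toAlgebra
  haveI := D.isLocalization_gaussRingOf
  refine IsLocalization.ringHom_ext D.J.primeCompl ?_
  ext y
  exact hAB y

/-- pointwise form of `ringHom_ext` -/
theorem ringHom_congr {C : Type*} [Semiring C] {A B : gaussRingOf R O →+* C}
    (hAB : ∀ y : R, A (D.toGauss y) = B (D.toGauss y)) (x : gaussRingOf R O) : A x = B x :=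
  RingHom.congr_fun (D.ringHom_ext hAB) x

/-- every element of `O ∩ Frac R` is a fraction `a / s` with `a, s ∈ R`, `s ∉ J` -/
theorem exists_toGauss_mul_eq (x : gaussRingOf R O) :
    ∃ a s : R, s ∉ D.J ∧ x * D.toGauss s = D.toGauss a := by
  haveI := D.prime
  letI := D.toGauss.toAlgebra
  haveI := D.isLocalization_gaussRingOf
  obtain ⟨⟨a, s⟩, h⟩ := IsLocalization.surj (M := D.J.primeCompl) x
  exact ⟨a, s.1, s.2, h⟩

end VertData

end Generic

/-! ### The node instances -/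

variable {K : Type} {F : Type*} [Field K] [Field F] [Algebra K F]
  {A : ValuationSubring K} [IsAlgClosed (ResidueField A)]
  {ι₀ : Type} {Ft₀ : ι₀ → Type} [∀ v, Field (Ft₀ v)] [∀ v, Algebra (ResidueField A) (Ft₀ v)]
  {ν₀ : Type}
  {S₀ : SemistableSetup (F := F) A (residue A) ι₀ Ft₀ ν₀} {e : ν₀} {ι : Type*}
  {L : AnnulusLevels A (tube S₀ e) ι} (X : BranchData S₀ e L) (i : ι)

/-- the vertical data of the level `i` on the component `src e` (prime `p2`) -/
def vertData₁ : VertData (L.level i).R (S₀.O (S₀.src e)) where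
  le := fun y hy => X.le₁ i y hy
  J := (L.level i).p2
  prime := (L.level i).prime2
  mem_iff := mem_p2_iff X i
  ϖ := X.piR i
  unif_mem := (L.level i).unif_mem_p2
  unif_ne := piR_ne_zero X i
  dvr := fun _ hy => exists_pow_mul_eq_p2 X i hy

/-- the vertical data of the level `i` on the component `tgt e` (prime `p1`) -/
def vertData₂ : VertData (L.level i).R (S₀.O (S₀.tgt e)) where
  le := fun y hy => X.le₂ i y hy
  J := (L.level i).p1
  prime := (L.level i).prime1
  mem_iff := mem_p1_iff X i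
  ϖ := X.piR i
  unif_mem := (L.level i).unif_mem_p1
  unif_ne := piR_ne_zero X i
  dvr := fun _ hy => exists_pow_mul_eq_p1 X i hy

@[simp] theorem vertData₁_J : (vertData₁ X i).J = (L.level i).p2 := rfl
@[simp] theorem vertData₂_J : (vertData₂ X i).J = (L.level i).p1 := rfl
@[simp] theorem vertData₁_unif : (vertData₁ X i).ϖ = X.piR i := rfl
@[simp] theorem vertData₂_unif : (vertData₂ X i).ϖ = X.piR i := rfl

/-- `O (src e) ∩ Frac R_i` -/
abbrev gaussRing₁ (_X : BranchData S₀ e L) (i : ι) : Subring F :=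
  gaussRingOf (L.level i).R (S₀.O (S₀.src e))

/-- `O (tgt e) ∩ Frac R_i` -/
abbrev gaussRing₂ (_X : BranchData S₀ e L) (i : ι) : Subring F :=
  gaussRingOf (L.level i).R (S₀.O (S₀.tgt e))

/-- helper5's `isUnit_map_of_notMem` at the level, component `src e`: a ring hom to a local ring
with `ψ ϖ, ψ v ∈ 𝔪_E` and `ψ u` a unit inverts `R \ p2`. -/
theorem isUnit_map_of_notMem_p2 {E : Type*} [CommRing E] [IsLocalRing E]
    (ψ : (L.level i).R →+* E) (hϖ : ψ (X.piR i) ∈ maximalIdeal E)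
    (hv : ψ (X.vR i) ∈ maximalIdeal E) (hu : IsUnit (ψ (X.uR i)))
    {y : (L.level i).R} (hy : y ∉ (L.level i).p2) : IsUnit (ψ y) := by
  haveI := (L.level i).isLocal
  haveI := (L.level i).noeth
  rw [p2_eq_span X i] at hy
  refine Expand.isUnit_map_of_notMem ψ (Ideal.span {X.piR i, X.vR i}) (X.uR i)
    (uR_mem_maximalIdeal X i) (maximalIdeal_le_sup_u X i) ?_ hu hy
  intro j hj
  rw [Ideal.mem_span_pair] at hj
  obtain ⟨a, b, rfl⟩ := hj
  rw [map_add, map_mul, map_mul]
  exact add_mem (Ideal.mul_mem_left _ _ hϖ) (Ideal.mul_mem_left _ _ hv)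

/-- helper5's `isUnit_map_of_notMem` at the level, component `tgt e`. -/
theorem isUnit_map_of_notMem_p1 {E : Type*} [CommRing E] [IsLocalRing E]
    (ψ : (L.level i).R →+* E) (hϖ : ψ (X.piR i) ∈ maximalIdeal E)
    (hu : ψ (X.uR i) ∈ maximalIdeal E) (hv : IsUnit (ψ (X.vR i)))
    {y : (L.level i).R} (hy : y ∉ (L.level i).p1) : IsUnit (ψ y) := by
  haveI := (L.level i).isLocal
  haveI := (L.level i).noeth
  rw [p1_eq_span X i] at hy
  refine Expand.isUnit_map_of_notMem ψ (Ideal.span {X.piR i, X.uR i}) (X.vR i)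
    (vR_mem_maximalIdeal X i) (maximalIdeal_le_sup_v X i) ?_ hv hy
  intro j hj
  rw [Ideal.mem_span_pair] at hj
  obtain ⟨a, b, rfl⟩ := hj
  rw [map_add, map_mul, map_mul]
  exact add_mem (Ideal.mul_mem_left _ _ hϖ) (Ideal.mul_mem_left _ _ hu)

/-- **The map `b1` before completion**: a ring hom `ψ : R_i →+* E` to a local ring with
`ψ ϖ, ψ v ∈ 𝔪_E`, `ψ u` a unit, extends to `O (src e) ∩ Frac R_i`. -/
def gaussLift₁_of_local {E : Type*} [CommRing E] [IsLocalRing E]
    (ψ : (L.level i).R →+* E) (hϖ : ψ (X.piR i) ∈ maximalIdeal E)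
    (hv : ψ (X.vR i) ∈ maximalIdeal E) (hu : IsUnit (ψ (X.uR i))) : gaussRing₁ X i →+* E :=
  (vertData₁ X i).gaussLift ψ fun _ hs => isUnit_map_of_notMem_p2 X i ψ hϖ hv hu hs

theorem gaussLift₁_of_local_toGauss {E : Type*} [CommRing E] [IsLocalRing E]
    (ψ : (L.level i).R →+* E) (hϖ : ψ (X.piR i) ∈ maximalIdeal E)
    (hv : ψ (X.vR i) ∈ maximalIdeal E) (hu : IsUnit (ψ (X.uR i))) (y : (L.level i).R) :
    gaussLift₁_of_local X i ψ hϖ hv hu ((vertData₁ X i).toGauss y) = ψ y :=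
  (vertData₁ X i).gaussLift_toGauss ψ _ y

/-- **The map `b2` before completion**: a ring hom `ψ : R_i →+* E` to a local ring with
`ψ ϖ, ψ u ∈ 𝔪_E`, `ψ v` a unit, extends to `O (tgt e) ∩ Frac R_i`. -/
def gaussLift₂_of_local {E : Type*} [CommRing E] [IsLocalRing E]
    (ψ : (L.level i).R →+* E) (hϖ : ψ (X.piR i) ∈ maximalIdeal E)
    (hu : ψ (X.uR i) ∈ maximalIdeal E) (hv : IsUnit (ψ (X.vR i))) : gaussRing₂ X i →+* E :=
  (vertData₂ X i).gaussLift ψ fun _ hs => isUnit_map_of_notMem_p1 X i ψ hϖ hu hv hs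

theorem gaussLift₂_of_local_toGauss {E : Type*} [CommRing E] [IsLocalRing E]
    (ψ : (L.level i).R →+* E) (hϖ : ψ (X.piR i) ∈ maximalIdeal E)
    (hu : ψ (X.uR i) ∈ maximalIdeal E) (hv : IsUnit (ψ (X.vR i))) (y : (L.level i).R) :
    gaussLift₂_of_local X i ψ hϖ hu hv ((vertData₂ X i).toGauss y) = ψ y :=
  (vertData₂ X i).gaussLift_toGauss ψ _ y

end Fermat.Agent.FF3.GaussLoc
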